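/-
helper73 — S59, TW-STRICT (b) PEU-FLAT, leaf ORTH (`H121.OrthStatement`): orthogonality of the
additive characters of an elementary abelian `p`-group.  Mathlib only.
-/
import Fermat.Agent.S59.H121.PeuSpec

set_option autoImplicit false

namespace Fermat.Agent.S59.H73

theorem exists_addHom_ne_zero_h73 (p : ℕ) [Fact p.Prime] (M : Type) [AddCommGroup M]
    [Module (ZMod p) M] (x : M) (hx : x ≠ 0) : ∃ ξ : M →+ ZMod p, ξ x ≠ 0 := by
  by_contra hcon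
  have hcon' : ∀ f : Module.Dual (ZMod p) M, f x = 0 := fun f => by
    by_contra h
    exact hcon ⟨f.toAddMonoidHom, h⟩
  exact hx ((Module.forall_dual_apply_eq_zero_iff (ZMod p) x).mp hcon')

theorem orth_core_h73 (p : ℕ) [Fact p.Prime] (K : Type) [Field K] (M : Type) [AddCommGroup M]
    [Fintype (M →+ ZMod p)]
    (hM : ∀ x : M, p • x = 0) (ζ : K) (hζ : IsPrimitiveRoot ζ p) (x : M) (hx : x ≠ 0) :
    ∑ ξ : M →+ ZMod p, ζ ^ (ξ x).val = 0 := by
  classical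
  have hp : p.Prime := Fact.out
  obtain ⟨ξ₀, hξ₀⟩ := @exists_addHom_ne_zero_h73 p _ M _ (AddCommGroup.zmodModule hM) x hx
  have hpow : ∀ a b : ZMod p, ζ ^ (a + b).val = ζ ^ a.val * ζ ^ b.val := by
    intro a b
    rw [← pow_add, ZMod.val_add, ← pow_eq_pow_mod _ hζ.pow_eq_one]
  have hS : ∑ ξ : M →+ ZMod p, ζ ^ (ξ x).val =
      ζ ^ (ξ₀ x).val * ∑ ξ : M →+ ZMod p, ζ ^ (ξ x).val := by
    rw [Finset.mul_sum]
    rw [← Fintype.sum_equiv (Equiv.addRight ξ₀) (fun ξ => ζ ^ ((ξ + ξ₀) x).val)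
      (fun ξ => ζ ^ (ξ x).val) (fun ξ => rfl)]
    refine Finset.sum_congr rfl fun ξ _ => ?_
    rw [AddMonoidHom.add_apply, hpow, mul_comm]
  have hne : ζ ^ (ξ₀ x).val ≠ 1 := by
    intro h1
    have h2 := (hζ.pow_eq_one_iff_dvd _).mp h1
    have h3 : (ξ₀ x).val < p := ZMod.val_lt _
    have h4 : (ξ₀ x).val ≠ 0 := by
      rwa [Ne, ZMod.val_eq_zero]
    exact h4 (Nat.eq_zero_of_dvd_of_lt h2 h3)
  have h5 : (1 - ζ ^ (ξ₀ x).val) * ∑ ξ : M →+ ZMod p, ζ ^ (ξ x).val = 0 := by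
    rw [sub_mul, one_mul, ← hS, sub_self]
  rcases mul_eq_zero.mp h5 with h | h
  · exact absurd (sub_eq_zero.mp h).symm hne
  · exact h

/-- **Leaf ORTH.** -/
theorem peuOrth : Fermat.Agent.S59.H121.OrthStatement := by
  intro p _ M _ _ _ hM ζ hζ x hx
  exact orth_core_h73 p _ M hM ζ hζ x hx

end Fermat.Agent.S59.H73
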